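/-
S26 / block V (second team helper92): calculus of Cartier data: powers, products, pull-back along a dominant morphism.
-/
import Fermat.Agent.S26.B.Defs

set_option autoImplicit false

universe u

open CategoryTheory CategoryTheory.Limits AlgebraicGeometry NeronModelInfra GoodReductionJacobian

noncomputable section

namespace Fermat.Agent.S26.V.W92

section Basic

variable {T : Scheme.{u}} [IsIntegral T]

theorem cd_ext {D D' : CD T} (h : ∀ x, D.θ x = D'.θ x) : D = D' := by
  cases D
  cases D'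
  congr
  exact funext h

theorem isUnitAt_pow {x : T} {u : T.functionField} (hu : IsUnitAt x u) (m : ℕ) :
    IsUnitAt x (u ^ m) := by
  obtain ⟨a, ha, rfl⟩ := hu
  exact ⟨a ^ m, ha.pow m, map_pow _ _ _⟩

theorem toFF_injective (x : T) : Function.Injective (toFF x) :=
  IsFractionRing.injective (T.presheaf.stalk x) T.functionField

/-- powers of Cartier data -/
def cdPow (D : CD T) (m : ℕ) : CD T where
  θ := fun x => D.θ x ^ m
  ne := fun x => pow_ne_zero _ (D.ne x)
  coh := fun x => by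
    obtain ⟨U, hxU, hU⟩ := D.coh x
    refine ⟨U, hxU, fun y hy => ?_⟩
    rw [← div_pow]
    exact isUnitAt_pow (hU y hy) m

@[simp] theorem cdPow_θ (D : CD T) (m : ℕ) (x : T) : (cdPow D m).θ x = D.θ x ^ m := rfl

/-- products of effective Cartier data -/
def ecdMul (D D' : ECD T) : ECD T where
  θ := fun x => D.θ x * D'.θ x
  ne := fun x h => by
    have h1 : toFF x (D.θ x) * toFF x (D'.θ x) = 0 := by rw [← map_mul, h, map_zero]
    rcases mul_eq_zero.1 h1 with h2 | h2
    · exact D.ne x (toFF_injective x (h2.trans (map_zero _).symm))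
    · exact D'.ne x (toFF_injective x (h2.trans (map_zero _).symm))
  coh := fun x => by
    obtain ⟨U, hxU, hU⟩ := D.coh x
    obtain ⟨U', hxU', hU'⟩ := D'.coh x
    refine ⟨U ⊓ U', ⟨hxU, hxU'⟩, fun y hy => ?_⟩
    rw [map_mul, map_mul, mul_div_mul_comm]
    exact (hU y hy.1).mul (hU' y hy.2)

theorem ecdMul_toCD (D D' : ECD T) : (ecdMul D D').toCD = D.toCD * D'.toCD :=
  cd_ext fun x => map_mul _ _ _

end Basic

section Cl

variable {K : Type u} [Field K] (PB : PicBase K) {T : Scheme.{u}} [IsIntegral T]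

theorem cl_one : PB.cl (1 : CD T) = 0 := by
  have h := PB.cl_mul (1 : CD T) 1
  have e : (1 : CD T) * 1 = 1 := cd_ext fun x => by simp
  rw [e] at h
  exact left_eq_add.1 h

theorem cl_cdPow (D : CD T) (m : ℕ) : PB.cl (cdPow D m) = m • PB.cl D := by
  induction m with
  | zero =>
    have e : cdPow D 0 = 1 := cd_ext fun x => by simp
    rw [e, cl_one, zero_nsmul]
  | succ m ih =>
    have e : cdPow D (m + 1) = cdPow D m * D := cd_ext fun x => by simp [pow_succ]
    rw [e, PB.cl_mul, ih, succ_nsmul]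

end Cl

section Pull

variable {X Y : Scheme.{u}} [IsIntegral X] [IsIntegral Y] {φ : X ⟶ Y}
  {ψ : Y.functionField →+* X.functionField}

theorem isUnitAt_map (h : IsFnMap φ ψ) {x : X} {u : Y.functionField} (hu : IsUnitAt (φ x) u) :
    IsUnitAt x (ψ u) := by
  obtain ⟨a, ha, rfl⟩ := hu
  exact ⟨(φ.stalkMap x).hom a, ha.map _, (h x a).symm⟩

theorem isRegAt_map (h : IsFnMap φ ψ) {x : X} {u : Y.functionField} (hu : IsRegAt (φ x) u) :
    IsRegAt x (ψ u) := by
  obtain ⟨a, rfl⟩ := hu
  exact ⟨(φ.stalkMap x).hom a, (h x a).symm⟩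

/-- the pull-back of effective Cartier data along a dominant morphism -/
def ecdPull (h : IsFnMap φ ψ) (D : ECD Y) : ECD X where
  θ := fun x => (φ.stalkMap x).hom (D.θ (φ x))
  ne := fun x h0 => by
    have h1 := h x (D.θ (φ x))
    rw [h0, map_zero, map_eq_zero] at h1
    exact D.ne (φ x) (toFF_injective _ (h1.trans (map_zero _).symm))
  coh := fun x => by
    obtain ⟨U, hxU, hU⟩ := D.coh (φ x)
    refine ⟨φ ⁻¹ᵁ U, hxU, fun y hy => ?_⟩
    rw [← h x, ← h y, ← map_div₀]
    exact isUnitAt_map h (hU (φ y) hy)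

theorem ecdPull_isPull (h : IsFnMap φ ψ) (D : ECD Y) : ECD.IsPull φ D (ecdPull h D) :=
  fun _ => rfl

theorem toFF_ecdPull (h : IsFnMap φ ψ) (D : ECD Y) (x : X) :
    toFF x ((ecdPull h D).θ x) = ψ (toFF (φ x) (D.θ (φ x))) :=
  (h x _).symm

theorem toFF_of_isPull (h : IsFnMap φ ψ) {D : ECD Y} {D' : ECD X} (hD : ECD.IsPull φ D D')
    (x : X) : toFF x (D'.θ x) = ψ (toFF (φ x) (D.θ (φ x))) := by
  rw [hD x]
  exact (h x _).symm

end Pull

end Fermat.Agent.S26.V.W92
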