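/-
S26 / block V, nodes V1-V2 (second team helper92), Mathlib only: the formal calculus of the third difference.

`G` a commutative group (the points `A(T)`), `P` an additive commutative group (`Pic T`), `q : G → P` any map (`x ↦ x^* ξ`).
`theta q x y z` is the third difference.  `{x | ∀ y z, theta q x y z = 0}` is closed under products; for such an `s`:
`q (s ^ k) = k ^ 2 • q s` (if `q` is even and `q 1 = 0`) and `q (s a) + q (s a⁻¹) = 2 q s + q a + q a⁻¹`.
-/
import Mathlib

set_option autoImplicit false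

namespace Fermat.Agent.S26.V.W92

variable {G P : Type*} [CommGroup G] [AddCommGroup P] (q : G → P)

/-- the third difference -/
def theta (x y z : G) : P :=
  q (x * y * z) - q (x * y) - q (x * z) - q (y * z) + q x + q y + q z

theorem theta_mul (x x' y z : G) :
    theta q (x * x') y z = theta q x (x' * y) z + theta q x' y z - theta q x x' z := by
  unfold theta
  have e1 : x * x' * y * z = x * (x' * y) * z := by group
  have e2 : x * x' * y = x * (x' * y) := by group
  rw [e1, e2]
  abel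

theorem theta_one (h1 : q 1 = 0) (y z : G) : theta q 1 y z = 0 := by
  unfold theta
  simp only [one_mul, h1]
  abel

variable {q}

theorem theta_mul_eq_zero {x x' : G} (hx : ∀ y z, theta q x y z = 0)
    (hx' : ∀ y z, theta q x' y z = 0) (y z : G) : theta q (x * x') y z = 0 := by
  rw [theta_mul, hx, hx', hx]
  abel

/-- the recursion -/
theorem q_pow_succ_succ {s : G} (hs : ∀ y z, theta q s y z = 0) (h1 : q 1 = 0)
    (hinv : q s⁻¹ = q s) (k : ℕ) :
    q (s ^ (k + 2)) = (2 : ℤ) • q (s ^ (k + 1)) - q (s ^ k) + (2 : ℤ) • q s := by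
  have h := hs (s ^ (k + 1)) s⁻¹
  unfold theta at h
  have e1 : s * s ^ (k + 1) * s⁻¹ = s ^ (k + 1) := by group
  have e2 : s * s ^ (k + 1) = s ^ (k + 2) := by rw [← pow_succ']
  have e3 : s * s⁻¹ = 1 := mul_inv_cancel s
  have e4 : s ^ (k + 1) * s⁻¹ = s ^ k := by rw [pow_succ, mul_assoc, mul_inv_cancel, mul_one]
  rw [e1, e2, e3, e4, h1, hinv] at h
  rw [← sub_eq_zero]
  have h2 : q (s ^ (k + 2)) - ((2 : ℤ) • q (s ^ (k + 1)) - q (s ^ k) + (2 : ℤ) • q s) =
      -(q (s ^ (k + 1)) - q (s ^ (k + 2)) - 0 - q (s ^ k) + q s + q (s ^ (k + 1)) + q s) := by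
    abel
  rw [h2, h, neg_zero]

/-- **Lin**, formal version. -/
theorem q_pow {s : G} (hs : ∀ y z, theta q s y z = 0) (h1 : q 1 = 0) (hinv : q s⁻¹ = q s)
    (k : ℕ) : q (s ^ k) = (k ^ 2) • q s := by
  have key : ∀ k : ℕ, q (s ^ k) = ((k : ℤ) ^ 2) • q s ∧ q (s ^ (k + 1)) = (((k : ℤ) + 1) ^ 2) • q s := by
    intro k
    induction k with
    | zero => simp [h1]
    | succ k ih =>
      refine ⟨by push_cast; exact ih.2, ?_⟩
      rw [q_pow_succ_succ hs h1 hinv, ih.1, ih.2, smul_smul, ← sub_smul, ← add_smul]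
      congr 1
      push_cast
      ring
  rw [(key k).1, ← natCast_zsmul]
  push_cast
  rfl

/-- **Square**, formal version. -/
theorem q_mul_add_q_mul_inv {s : G} (hs : ∀ y z, theta q s y z = 0) (h1 : q 1 = 0) (a : G) :
    q (s * a) + q (s * a⁻¹) = 2 • q s + q a + q a⁻¹ := by
  have h := hs a a⁻¹
  unfold theta at h
  have e1 : s * a * a⁻¹ = s := by group
  rw [e1, mul_inv_cancel, h1] at h
  rw [← sub_eq_zero]
  have h2 : q (s * a) + q (s * a⁻¹) - (2 • q s + q a + q a⁻¹) =
      -(q s - q (s * a) - q (s * a⁻¹) - 0 + q s + q a + q a⁻¹) := by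
    abel
  rw [h2, h, neg_zero]

end Fermat.Agent.S26.V.W92
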