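/-
S26 / block V (second team helper92): the morphisms `[-1]`, `τ_a` of `A` and the points `x⁻¹`, `x ^ m`, `x · a` as composites.
-/
import Fermat.Agent.S26.B.Defs

set_option autoImplicit false

universe u

open CategoryTheory CategoryTheory.Limits AlgebraicGeometry NeronModelInfra GoodReductionJacobian

noncomputable section

namespace Fermat.Agent.S26.V.W92

variable {K : Type u} [Field K] {A : Scheme.{u}} {f : A ⟶ SpK K} (L : RelativeGroupLaw K f)

/-- the constant `T`-point with value the `K`-point `a` -/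
def constPt {T : Scheme.{u}} (t : T ⟶ SpK K) (a : SchemeHomOver (𝟙 (SpK K)) f) :
    SchemeHomOver t f :=
  schemeHomOverComp t (Category.comp_id t) a

/-- `[-1] : A ⟶ A` -/
def negMor : A ⟶ A := (L.inv f RelativeGroupLaw.idPoint).1

/-- the translation `τ_a : A ⟶ A` -/
def transMor (a : SchemeHomOver (𝟙 (SpK K)) f) : A ⟶ A :=
  (L.mul f RelativeGroupLaw.idPoint (constPt f a)).1

theorem comp_idPoint {T : Scheme.{u}} {t : T ⟶ SpK K} (x : SchemeHomOver t f) :
    schemeHomOverComp x.1 x.2 (RelativeGroupLaw.idPoint : SchemeHomOver f f) = x :=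
  Subtype.ext (Category.comp_id _)

theorem comp_constPt {T T' : Scheme.{u}} (t : T ⟶ SpK K) (t' : T' ⟶ SpK K) (ψ : T' ⟶ T)
    (hψ : ψ ≫ t = t') (a : SchemeHomOver (𝟙 (SpK K)) f) :
    schemeHomOverComp ψ hψ (constPt t a) = constPt t' a :=
  Subtype.ext (by
    show ψ ≫ t ≫ a.1 = t' ≫ a.1
    rw [← Category.assoc, hψ])

theorem inv_natural {T T' : Scheme.{u}} (t : T ⟶ SpK K) (t' : T' ⟶ SpK K) (ψ : T' ⟶ T)
    (hψ : ψ ≫ t = t') (x : SchemeHomOver t f) :
    schemeHomOverComp ψ hψ (L.inv t x) = L.inv t' (schemeHomOverComp ψ hψ x) := by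
  letI := L.pointGroup t'
  have h : schemeHomOverComp ψ hψ (L.inv t x) * schemeHomOverComp ψ hψ x = 1 := by
    show L.mul t' _ _ = L.one t'
    rw [← L.mul_natural t t' ψ hψ, L.inv_mul_cancel, L.one_natural]
  exact eq_inv_of_mul_eq_one_left h

theorem one_coe {T : Scheme.{u}} (t : T ⟶ SpK K) :
    (L.one t).1 = t ≫ (L.one (𝟙 (SpK K))).1 :=
  (congrArg Subtype.val (L.one_natural (𝟙 (SpK K)) t t (Category.comp_id t))).symm

theorem inv_coe {T : Scheme.{u}} (t : T ⟶ SpK K) (x : SchemeHomOver t f) :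
    (L.inv t x).1 = x.1 ≫ negMor L := by
  have h := inv_natural L f t x.1 x.2 RelativeGroupLaw.idPoint
  rw [comp_idPoint] at h
  exact (congrArg Subtype.val h).symm

theorem nsmul_coe {T : Scheme.{u}} (t : T ⟶ SpK K) (m : ℕ) (x : SchemeHomOver t f) :
    (L.nsmul t m x).1 = x.1 ≫ L.schemeNsmul m := by
  have h := L.nsmul_natural f t x.1 x.2 m RelativeGroupLaw.idPoint
  rw [comp_idPoint] at h
  exact (congrArg Subtype.val h).symm

theorem mul_constPt_coe {T : Scheme.{u}} (t : T ⟶ SpK K) (x : SchemeHomOver t f)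
    (a : SchemeHomOver (𝟙 (SpK K)) f) :
    (L.mul t x (constPt t a)).1 = x.1 ≫ transMor L a := by
  have h := L.mul_natural f t x.1 x.2 RelativeGroupLaw.idPoint (constPt f a)
  rw [comp_idPoint, comp_constPt] at h
  exact (congrArg Subtype.val h).symm

theorem inv_constPt {T : Scheme.{u}} (t : T ⟶ SpK K) (a : SchemeHomOver (𝟙 (SpK K)) f) :
    L.inv t (constPt t a) = constPt t (L.inv (𝟙 (SpK K)) a) :=
  (inv_natural L (𝟙 (SpK K)) t t (Category.comp_id t) a).symm

theorem negMor_negMor : negMor L ≫ negMor L = 𝟙 A := by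
  have h := inv_coe L f (L.inv f RelativeGroupLaw.idPoint)
  letI := L.pointGroup f
  have h2 : L.inv f (L.inv f RelativeGroupLaw.idPoint) = RelativeGroupLaw.idPoint :=
    inv_inv (RelativeGroupLaw.idPoint : SchemeHomOver f f)
  rw [h2] at h
  exact h.symm

/-- `L.nsmul` is the power of the group of points -/
theorem nsmul_eq_pow {T : Scheme.{u}} (t : T ⟶ SpK K) (m : ℕ) (x : SchemeHomOver t f) :
    letI := L.pointGroup t
    L.nsmul t m x = x ^ m := by
  letI := L.pointGroup t
  induction m with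
  | zero => rfl
  | succ m ih =>
    rw [RelativeGroupLaw.nsmul_succ, ih, pow_succ]
    rfl

end Fermat.Agent.S26.V.W92
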