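/-
S26 / block V, nodes V2-V3 (second team helper92): the cube for points generated by curves, and its two consequences in `Pic T`:
`(m s)^* ξ = m² s^* ξ` (`ξ` symmetric) and `(s + a)^* ξ + (s - a)^* ξ = 2 s^* ξ` (`a` a `K`-point).
-/
import Fermat.Agent.S26.V.W92.Formal
import Fermat.Agent.S26.V.W92.Pts

set_option autoImplicit false
set_option linter.style.haveILetI false

universe u

open CategoryTheory CategoryTheory.Limits AlgebraicGeometry NeronModelInfra GoodReductionJacobian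

noncomputable section

namespace Fermat.Agent.S26.V.W92

variable {K : Type u} [Field K] {A : Scheme.{u}} {f : A ⟶ SpK K} {L : RelativeGroupLaw K f}

/-- the commutative group of `T`-points -/
@[reducible] def ptCommGroup (hc : L.IsCommutative) {T : Scheme.{u}} (t : T ⟶ SpK K) :
    CommGroup (SchemeHomOver t f) :=
  { L.pointGroup t with mul_comm := hc t }

variable (PT : PicTheory K f L)

/-- `x ↦ x^* ξ` -/
def qq (ξ : PT.Pic A) {T : Scheme.{u}} (t : T ⟶ SpK K) (x : SchemeHomOver t f) : PT.Pic T :=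
  PT.pull x.1 ξ

theorem qq_constPt (ξ : PT.Pic A) {T : Scheme.{u}} (t : T ⟶ SpK K)
    (a : SchemeHomOver (𝟙 (SpK K)) f) : qq PT ξ t (constPt t a) = 0 := by
  show PT.pull (t ≫ a.1) ξ = 0
  rw [PT.pull_comp, PT.pic_point (PT.pull a.1 ξ), map_zero]

theorem qq_one (ξ : PT.Pic A) {T : Scheme.{u}} (t : T ⟶ SpK K) : qq PT ξ t (L.one t) = 0 := by
  show PT.pull (L.one t).1 ξ = 0
  rw [one_coe, PT.pull_comp, PT.pic_point (PT.pull _ ξ), map_zero]

/-- **the cube** for points generated by curves -/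
theorem theta_eq_zero_of_curveGen (hc : L.IsCommutative) (ξ : PT.Pic A) {T : Scheme.{u}}
    (t : T ⟶ SpK K) {s : SchemeHomOver t f} (hs : CurveGen K f L t s) :
    letI := ptCommGroup hc t
    ∀ y z : SchemeHomOver t f, theta (qq PT ξ t) s y z = 0 := by
  letI := ptCommGroup hc t
  induction hs with
  | one => exact theta_one _ (qq_one PT ξ t)
  | mul x y _ _ hx hy => exact theta_mul_eq_zero hx hy
  | curve c o γ h p => exact fun y z => PT.cube c o γ h ξ t p y z

/-- **Lin** in `Pic T`. -/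
theorem pull_nsmul (hc : L.IsCommutative) (ξ : PT.Pic A) (hξ : PT.pull (negMor L) ξ = ξ)
    {T : Scheme.{u}} (t : T ⟶ SpK K) {s : SchemeHomOver t f} (hs : CurveGen K f L t s) (m : ℕ) :
    PT.pull s.1 (PT.pull (L.schemeNsmul m) ξ) = (m ^ 2) • PT.pull s.1 ξ := by
  letI := ptCommGroup hc t
  have hinv : qq PT ξ t s⁻¹ = qq PT ξ t s := by
    show PT.pull (L.inv t s).1 ξ = PT.pull s.1 ξ
    rw [inv_coe, PT.pull_comp, hξ]
  have h := q_pow (theta_eq_zero_of_curveGen PT hc ξ t hs) (qq_one PT ξ t) hinv m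
  have e : s ^ m = L.nsmul t m s := (nsmul_eq_pow L t m s).symm
  rw [e] at h
  rw [← PT.pull_comp, ← nsmul_coe]
  exact h

/-- **Square** in `Pic T`. -/
theorem pull_trans (hc : L.IsCommutative) (ξ : PT.Pic A) {T : Scheme.{u}} (t : T ⟶ SpK K)
    {s : SchemeHomOver t f} (hs : CurveGen K f L t s) (a : SchemeHomOver (𝟙 (SpK K)) f) :
    PT.pull s.1 (PT.pull (transMor L a) ξ) +
      PT.pull s.1 (PT.pull (transMor L (L.inv (𝟙 (SpK K)) a)) ξ) = 2 • PT.pull s.1 ξ := by
  letI := ptCommGroup hc t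
  have h := q_mul_add_q_mul_inv (theta_eq_zero_of_curveGen PT hc ξ t hs) (qq_one PT ξ t)
    (constPt t a)
  have e : (constPt t a)⁻¹ = constPt t (L.inv (𝟙 (SpK K)) a) := inv_constPt L t a
  rw [e, qq_constPt, qq_constPt, add_zero, add_zero] at h
  rw [← PT.pull_comp, ← PT.pull_comp, ← mul_constPt_coe, ← mul_constPt_coe]
  exact h

end Fermat.Agent.S26.V.W92
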