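/-
S26 / block V, node V4 (second team helper92): extraction of the two relations between Cartier data on the cover `X'`.

(Lin')  `D` symmetric, `Dm = [m]^* D`:   `∃ h₀ ≠ 0, ∀ x', h₀ * σ(Dm.θ (s x')) / σ(D.θ (s x')) ^ (m ^ 2)` is a unit at `x'`.
(Sq')   `Da = τ_a^* D`, `Dma = τ_{-a}^* D`:   `∃ f' ≠ 0, ∀ x', f' * σ(Da.θ (s x')) * σ(Dma.θ (s x')) / σ(D.θ (s x')) ^ 2` is a unit at `x'`.
-/
import Fermat.Agent.S26.V.W92.Quad
import Fermat.Agent.S26.V.W92.CDCalc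

set_option autoImplicit false

universe u

open CategoryTheory CategoryTheory.Limits AlgebraicGeometry NeronModelInfra GoodReductionJacobian

noncomputable section

namespace Fermat.Agent.S26.V.W92

variable {K : Type u} [Field K] {A : Scheme.{u}} {f : A ⟶ SpK K} {L : RelativeGroupLaw K f}
  [IsIntegral A] (PT : PicTheory K f L) (X : CoverData K f L)

/-- the local equation of `D` at `s x'`, as a rational function on the cover -/
def loc (D : ECD A) (x' : X.X) : X.X.functionField :=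
  X.σ (toFF (X.s.1 x') (D.θ (X.s.1 x')))

theorem pull_s_cl (D : ECD A) :
    PT.pull X.s.1 (PT.cl D.toCD) = PT.cl (ecdPull X.isFn D).toCD :=
  PT.cl_pull X.s.1 D _ (ecdPull_isPull X.isFn D)

theorem ecdPull_toCD_θ (D : ECD A) (x' : X.X) : (ecdPull X.isFn D).toCD.θ x' = loc X D x' :=
  toFF_ecdPull X.isFn D x'

/-- `E · [-1]^* E` is symmetric -/
theorem symm_ecdMul (E Em : ECD A) (hEm : ECD.IsPull (negMor L) E Em) :
    PT.pull (negMor L) (PT.cl (ecdMul E Em).toCD) = PT.cl (ecdMul E Em).toCD := by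
  have h1 : PT.pull (negMor L) (PT.cl E.toCD) = PT.cl Em.toCD := PT.cl_pull _ E Em hEm
  have h2 : PT.pull (negMor L) (PT.cl Em.toCD) = PT.cl E.toCD := by
    rw [← h1, ← PT.pull_comp, negMor_negMor, PT.pull_id]
  rw [ecdMul_toCD, PT.cl_mul, map_add, h1, h2, add_comm]

/-- **(Lin')** -/
theorem lin' (hc : L.IsCommutative) (D : ECD A)
    (hD : PT.pull (negMor L) (PT.cl D.toCD) = PT.cl D.toCD) (m : ℕ) (Dm : ECD A)
    (hDm : ECD.IsPull (L.schemeNsmul m) D Dm) :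
    ∃ h₀ : X.X.functionField, h₀ ≠ 0 ∧
      ∀ x' : X.X, IsUnitAt x' (h₀ * loc X Dm x' / loc X D x' ^ (m ^ 2)) := by
  have h := pull_nsmul PT hc (PT.cl D.toCD) hD X.x X.gen m
  rw [PT.cl_pull _ D Dm hDm, pull_s_cl, pull_s_cl, ← cl_cdPow] at h
  have h0 : PT.cl ((ecdPull X.isFn Dm).toCD * (cdPow (ecdPull X.isFn D).toCD (m ^ 2))⁻¹) = 0 := by
    rw [PT.cl_mul, PT.cl_inv, h, add_neg_cancel]
  obtain ⟨h₀, hne, hu⟩ := PT.isPrincipal_of_cl_eq_zero _ h0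
  refine ⟨h₀, hne, fun x' => ?_⟩
  have := hu x'
  rw [CD.mul_θ, CD.inv_θ, cdPow_θ, ecdPull_toCD_θ, ecdPull_toCD_θ, ← div_eq_mul_inv,
    ← mul_div_assoc] at this
  exact this

include PT in
/-- **(Sq')** -/
theorem sq' (hc : L.IsCommutative) (D : ECD A) (a : SchemeHomOver (𝟙 (SpK K)) f) (Da Dma : ECD A)
    (hDa : ECD.IsPull (transMor L a) D Da)
    (hDma : ECD.IsPull (transMor L (L.inv (𝟙 (SpK K)) a)) D Dma) :
    ∃ f' : X.X.functionField, f' ≠ 0 ∧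
      ∀ x' : X.X, IsUnitAt x' (f' * loc X Da x' * loc X Dma x' / loc X D x' ^ 2) := by
  have h := pull_trans PT hc (PT.cl D.toCD) X.x X.gen a
  rw [PT.cl_pull _ D Da hDa, PT.cl_pull _ D Dma hDma, pull_s_cl, pull_s_cl, pull_s_cl,
    ← cl_cdPow] at h
  have h0 : PT.cl ((ecdPull X.isFn Da).toCD * (ecdPull X.isFn Dma).toCD *
      (cdPow (ecdPull X.isFn D).toCD 2)⁻¹) = 0 := by
    rw [PT.cl_mul, PT.cl_mul, PT.cl_inv, h, add_neg_cancel]
  obtain ⟨f', hne, hu⟩ := PT.isPrincipal_of_cl_eq_zero _ h0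
  refine ⟨f', hne, fun x' => ?_⟩
  have := hu x'
  rw [CD.mul_θ, CD.mul_θ, CD.inv_θ, cdPow_θ, ecdPull_toCD_θ, ecdPull_toCD_θ, ecdPull_toCD_θ,
    ← div_eq_mul_inv, ← mul_div_assoc, ← mul_assoc] at this
  exact this

end Fermat.Agent.S26.V.W92
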